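import Mathlib
import Fermat.Agent.S29.Interface
import Fermat.Agent.S29.Eigen.EigenReduce

/-!
# S29 (R3, TOP): the ledger of block statements for `Interface.NonVanishTarget`

`Γ := Γ₀(N)`.  Everything is phrased relative to a `TopData N p` = a `ZMod p`-submodule `P` of
`Hom(Γ, ZMod p)` (the parabolic/elliptic-trivial characters) together with operators `T ℓ` on it
(`ℓ ∤ N p`; the transfer form of the Hecke operators, `Betti.heckeHom` restricted to `P`).

* `BlockB D`  (blocks (B)): for every normalised eigenform `g`, field `k0 ⊇ 𝔽_p`, `φ0 : ℤ̄ →+* k0`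
  and integral lifts `a ℓ` of the `q`-coefficients: a nonzero `w ∈ k0 ⊗ P` with
  `(T ℓ ⊗ 1) w = φ0 (a ℓ) • w`;
* `BlockK D`  (blocks (E)+(MF)+(Dict)+(Kummer)+(Hk)+(Desc)): an injective `ZMod p`-linear
  `e : P → J₀(N)(ℚ̄)[p]` with `e (T ℓ u) = T_ℓ (e u)`;
* `nonVanish_of_blocks : BlockB D → BlockK D → NonVanish …`, `nonVanishTarget_of_blocks`.

`BlockK` is split further:

* `BlockKC D` ((E)+(MF)+(Dict)+(Kummer)+(Hk), all over `ℂ`): an injective additive
  `cls : P → Pic⁰(F_ℂ)[p]` with `cls (T ℓ u) = T_ℓ^ℂ (cls u)`, `T_ℓ^ℂ = heckeOperatorAlong ℂ N ℓ`;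
* `BlockDesc N p` ((Desc)): an additive bijection `bc : J₀(N)(ℚ̄)[p] ≃ Pic⁰(F_ℂ)[p]` with
  `bc (T_ℓ x) = T_ℓ^ℂ (bc x)`;
* `blockK_of : BlockKC D → BlockDesc N p → BlockK D`.
-/

set_option autoImplicit false
set_option linter.unusedSectionVars false
set_option linter.style.haveILetI false

noncomputable section

open AlgebraicCurve ModularCurve CongruenceSubgroup
open scoped TensorProduct

namespace Fermat.Agent.S29.NonVanish.Skeleton

open Fermat.Agent.S29.Interface Fermat.Agent.S29.Eigen.EigenReduce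

/-- the primes not dividing `N p`. -/
abbrev GoodPrime (N p : ℕ) : Type := {ℓ : Nat.Primes // ¬ (ℓ : ℕ) ∣ N * p}

/-- the source module of the Kummer embedding with its Hecke operators. -/
structure TopData (N p : ℕ) where
  /-- the parabolic/elliptic-trivial `𝔽_p`-valued characters of `Γ₀(N)` -/
  P : Submodule (ZMod p) (Additive (Gamma0 N) →+ ZMod p)
  /-- the Hecke operators (transfer form) on `P` -/
  T : GoodPrime N p → P →ₗ[ZMod p] P

/-- the function field of `X₀(N)` over `ℂ`. -/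
abbrev FCN (N : ℕ) : IntermediateField ℂ (LaurentSeries ℂ) :=
  laurentBaseChange ℂ (modularFunctionFieldFull N)

/-- the `p`-torsion of `Pic⁰` of `X₀(N)` over `ℂ`. -/
abbrev JpC (N p : ℕ) : Type := Pic0.torsion ℂ (FCN N) p

/-- the Hecke operator on `Pic⁰` over `ℂ`. -/
def heckeC (N : ℕ) [NeZero N] (ℓ : Nat.Primes) : Pic0 ℂ (FCN N) →+ Pic0 ℂ (FCN N) :=
  haveI : NeZero (ℓ : ℕ) := ⟨ℓ.2.ne_zero⟩
  heckeOperatorAlong ℂ N ℓ

section Blocks

variable (N p : ℕ) [NeZero N]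

/-- **block (B)**: eigen-support on the topological side. -/
def BlockB (D : TopData N p) : Prop :=
  ∀ (g : CuspForm (Gamma0 N) 2), g.IsNormalizedEigenform → p.Prime →
    ∀ (k0 : Type) [Field k0] [Algebra (ZMod p) k0] (φ0 : integralClosure ℤ ℂ →+* k0)
      (a : Nat.Primes → integralClosure ℤ ℂ),
      (∀ ℓ : Nat.Primes, ¬ (ℓ : ℕ) ∣ N * p →
        ((a ℓ : integralClosure ℤ ℂ) : ℂ) = ModularFormClass.qCoeff g ℓ) →
      ∃ w : k0 ⊗[ZMod p] D.P, w ≠ 0 ∧
        ∀ ℓ : GoodPrime N p, (D.T ℓ).baseChange k0 w = φ0 (a ℓ.1) • w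

/-- **block (K)**: the Hecke-equivariant Kummer embedding into `J₀(N)(ℚ̄)[p]`. -/
def BlockK (D : TopData N p) : Prop :=
  ∃ e : D.P →ₗ[ZMod p] Jp N p, Function.Injective e ∧
    ∀ (ℓ : GoodPrime N p) (u : D.P), e (D.T ℓ u) = heckeTors N p ℓ.1 (e u)

/-- **block (KC)**: the Hecke-equivariant Kummer embedding over `ℂ`. -/
def BlockKC (D : TopData N p) : Prop :=
  ∃ cls : D.P →+ JpC N p, Function.Injective cls ∧
    ∀ (ℓ : GoodPrime N p) (u : D.P),
      ((cls (D.T ℓ u) : JpC N p) : Pic0 ℂ (FCN N)) =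
        heckeC N ℓ.1 ((cls u : JpC N p) : Pic0 ℂ (FCN N))

/-- **block (Desc)**: `p`-torsion descends from `ℂ` to `ℚ̄`, compatibly with `T_ℓ`. -/
def BlockDesc : Prop :=
  ∃ bc : Jp N p ≃+ JpC N p, ∀ (ℓ : GoodPrime N p) (x : Jp N p),
    ((bc (heckeTorsAdd N p ℓ.1 x) : JpC N p) : Pic0 ℂ (FCN N)) =
      heckeC N ℓ.1 ((bc x : JpC N p) : Pic0 ℂ (FCN N))

variable {N p}

/-- (KC) + (Desc) ⇒ (K). -/
theorem blockK_of {D : TopData N p} (hKC : BlockKC N p D) (hDesc : BlockDesc N p) :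
    BlockK N p D := by
  obtain ⟨cls, hinj, hcls⟩ := hKC
  obtain ⟨bc, hbc⟩ := hDesc
  let e0 : D.P →+ Jp N p := bc.symm.toAddMonoidHom.comp cls
  refine ⟨e0.toZModLinearMap p, ?_, ?_⟩
  · intro u u' h
    have h1 : bc.symm (cls u) = bc.symm (cls u') := h
    exact hinj (bc.symm.injective h1)
  · intro ℓ u
    show bc.symm (cls (D.T ℓ u)) = heckeTorsAdd N p ℓ.1 (bc.symm (cls u))
    rw [AddEquiv.symm_apply_eq]
    apply Subtype.ext
    rw [hbc ℓ (bc.symm (cls u)), AddEquiv.apply_symm_apply]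
    exact hcls ℓ u

/-- **(B) + (K) ⇒ nonvanishing.** -/
theorem nonVanish_of_blocks {D : TopData N p} (hB : BlockB N p D) (hK : BlockK N p D)
    (g : CuspForm (Gamma0 N) 2) (hg : g.IsNormalizedEigenform) (hp : p.Prime)
    (k0 : Type) [Field k0] [Algebra (ZMod p) k0] (φ0 : integralClosure ℤ ℂ →+* k0)
    (a : Nat.Primes → integralClosure ℤ ℂ)
    (ha : ∀ ℓ : Nat.Primes, ¬ (ℓ : ℕ) ∣ N * p →
      ((a ℓ : integralClosure ℤ ℂ) : ℂ) = ModularFormClass.qCoeff g ℓ) :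
    NonVanish N p k0 (fun ℓ => φ0 (a ℓ)) := by
  haveI : Fact p.Prime := ⟨hp⟩
  obtain ⟨w, hw, hwe⟩ := hB g hg hp k0 φ0 a ha
  obtain ⟨e, he, hcomm⟩ := hK
  obtain ⟨v, hv, hve⟩ := exists_eigen_of_embedding p D.P D.T e he
    (fun ℓ : GoodPrime N p => heckeTors N p ℓ.1) hcomm (fun ℓ => φ0 (a ℓ.1)) w hw hwe
  exact ⟨v, hv, fun ℓ hℓ => hve ⟨ℓ, hℓ⟩⟩

end Blocks

/-- **the target of (R3) from the blocks.** -/
theorem nonVanishTarget_of_blocks
    (h : ∀ (N : ℕ) [NeZero N] (p : ℕ), p.Prime →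
      ∃ D : TopData N p, BlockB N p D ∧ BlockK N p D) :
    NonVanishTarget := by
  intro N _ g hg p hp k0 _ _ φ0 a ha
  obtain ⟨D, hB, hK⟩ := h N p hp
  exact nonVanish_of_blocks hB hK g hg hp k0 φ0 a ha

/-- the same with (K) split into (KC) + (Desc). -/
theorem nonVanishTarget_of_blocks'
    (h : ∀ (N : ℕ) [NeZero N] (p : ℕ), p.Prime →
      BlockDesc N p ∧ ∃ D : TopData N p, BlockB N p D ∧ BlockKC N p D) :
    NonVanishTarget :=
  nonVanishTarget_of_blocks (fun N _ p hp => by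
    obtain ⟨hDesc, D, hB, hKC⟩ := h N p hp
    exact ⟨D, hB, blockK_of hKC hDesc⟩)

end Fermat.Agent.S29.NonVanish.Skeleton

end
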