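import Fermat.Agent.S29.NonVanish.Skeleton
import Fermat.Agent.S29.Betti.EigenSupport

/-!
# S29 (R3, TOP): THE common top data `D0` and block (B)

* `D0 N p : Skeleton.TopData N p` : `P := Betti.XMod N (ZMod p) (ZMod p)` (the characters
  `Γ₀(N) → 𝔽_p` killing every element with `tr² = 4` and every element of finite order) and
  `T ℓ := Betti.heckeXp N p ℓ` (the transfer form of the Hecke operator, restricted to `P`);
* `blockB N p : Skeleton.BlockB N p (D0 N p)`.
-/

set_option autoImplicit false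

namespace Fermat.Agent.S29.NonVanish.BlockB

open CongruenceSubgroup ModularCurve
open Fermat.Agent.S29.NonVanish.Skeleton
open scoped MatrixGroups TensorProduct

noncomputable section

/-- a prime not dividing `N p` does not divide `N`. -/
def goodOf {N p : ℕ} (ℓ : Skeleton.GoodPrime N p) : Betti.GoodPrime N :=
  ⟨ℓ.1, fun h => ℓ.2 (h.mul_right p)⟩

@[simp] theorem goodOf_coe {N p : ℕ} (ℓ : Skeleton.GoodPrime N p) :
    ((goodOf ℓ).1 : Nat.Primes) = ℓ.1 := rfl

/-- **THE common top data**: `P = X N (ZMod p)`, `T ℓ = heckeHom` restricted to `P`. -/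
def D0 (N p : ℕ) [NeZero N] : TopData N p where
  P := Betti.XMod N (ZMod p) (ZMod p)
  T := fun ℓ => Betti.heckeXp N p (goodOf ℓ)

variable (N p : ℕ) [NeZero N]

theorem D0_P : (D0 N p).P = Betti.XMod N (ZMod p) (ZMod p) := rfl

theorem D0_T (ℓ : Skeleton.GoodPrime N p) : (D0 N p).T ℓ = Betti.heckeXp N p (goodOf ℓ) := rfl

theorem mem_D0_P_iff {c : Additive (Gamma0 N) →+ ZMod p} :
    c ∈ (D0 N p).P ↔ Betti.IsAdmChar c := Iff.rfl

/-- the operators of `D0` are `heckeHom` (transfer form). -/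
theorem D0_T_coe (ℓ : Skeleton.GoodPrime N p) (u : (D0 N p).P) :
    (((D0 N p).T ℓ u : (D0 N p).P) : Additive (Gamma0 N) →+ ZMod p) =
      Betti.heckeHom (goodOf ℓ).2 (ZMod p) (u : Additive (Gamma0 N) →+ ZMod p) := rfl

/-- the operators of `D0`, evaluated: the sum over the steps. -/
theorem D0_T_apply (ℓ : Skeleton.GoodPrime N p) (u : (D0 N p).P) (γ : Gamma0 N) :
    (((D0 N p).T ℓ u : (D0 N p).P) : Additive (Gamma0 N) →+ ZMod p) (Additive.ofMul γ) =
      ∑ x : OnePoint (ZMod ((goodOf ℓ).1 : ℕ)),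
        (u : Additive (Gamma0 N) →+ ZMod p) (Additive.ofMul (Betti.stepG (goodOf ℓ).2 γ x)) := by
  rw [D0_T_coe, Betti.heckeHom_apply]

/-- **block (B)** for the common top data. -/
theorem blockB : BlockB N p (D0 N p) := by
  intro g hg hp k0 _ _ φ0 a ha
  have : Fact p.Prime := ⟨hp⟩
  obtain ⟨w, hw, hwe⟩ := Betti.exists_tensor_eigen_X N hg p φ0
  refine ⟨w, hw, fun ℓ => ?_⟩
  obtain ⟨a', ha', h⟩ := hwe (goodOf ℓ)
  have e : a' = a ℓ.1 := Subtype.ext (ha'.trans (ha ℓ.1 ℓ.2).symm)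
  rw [e] at h
  exact h

end

end Fermat.Agent.S29.NonVanish.BlockB
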