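import Mathlib
import Fermat.Agent.S29.NonVanish.Skeleton
import Fermat.Agent.S29.NonVanish.BlockB
import Fermat.Agent.S29.Kummer.BlocksC
import Fermat.Agent.S29.Hk.Equivariance
import Fermat.Agent.S29.Hk.NormPhiC
import Fermat.Agent.S29.ModFunC.CrossLevelC

/-!
# S29 (R3, T2): `NonVanishTarget` from block (Desc) alone

Everything of (R3) except the descent block is assembled here:

* `normPhiC` : the norm formula (A) through the concrete bridge,
  `PhiC N (Norm_α (β f)) = heckeProd ℓ (PhiC N f)` (`Hk/NormPhiC` + `ModFunC/CrossLevelC`);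
* `blockKC` : `Skeleton.BlockKC N p (BlockB.D0 N p)` (`Hk/Equivariance.blockKC_of` at the ledger
  `Kummer/BlocksC.blocksC`);
* `nonVanishTarget_of_desc` : `(∀ N p, BlockDesc N p) → Interface.NonVanishTarget`.
-/

set_option autoImplicit false
set_option linter.style.haveILetI false

noncomputable section

namespace Fermat.Agent.S29.NonVanish.MainOf

open AlgebraicCurve ModularCurve CongruenceSubgroup
open Fermat.Agent.S24 Fermat.Agent.S24.PsiLe
open Fermat.Agent.S29.Kummer.ClassMapC
open Fermat.Agent.S29.Hk.HeckeProd Fermat.Agent.S29.Hk.Equivariance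
open scoped MatrixGroups

/-- **the norm formula (A)** through the concrete bridge `PhiC`. -/
theorem normPhiC (N ℓ : ℕ) [NeZero N] [hℓ : Fact ℓ.Prime] [NeZero ℓ] (hℓN : ¬ ℓ ∣ N)
    (f : FC N) :
    ModFunC.PhiC N (heckeNormC N ℓ f) = heckeProd ℓ (ModFunC.PhiC N f) := by
  have hℓ0 : ℓ ≠ 0 := hℓ.out.ne_zero
  have h := Hk.NormPhiC.map_norm_beta_eq_prod (RingHom.id ℂ) N ℓ hℓN hℓ0
    (ModFunC.CrossLevelC.hα N ℓ) (ModFunC.CrossLevelC.hβ N ℓ hℓ0) f
  rw [heckeProd_apply]
  exact h

/-- the module of `BlockB.D0` consists of admissible characters. -/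
theorem D0_le_admSub (N p : ℕ) [NeZero N] : (BlockB.D0 N p).P ≤ admSub N p :=
  fun _ hu => hu

/-- **block (KC)** for the common top data. -/
theorem blockKC (N p : ℕ) [NeZero N] [Fact p.Prime] :
    Skeleton.BlockKC N p (BlockB.D0 N p) :=
  blockKC_of (Kummer.BlocksC.blocksC N p)
    (fun ℓ _ _ hℓN f => normPhiC N ℓ hℓN f) (BlockB.D0 N p) (D0_le_admSub N p)
    (fun _ _ _ => rfl)

/-- **`NonVanishTarget` from the descent block.** -/
theorem nonVanishTarget_of_desc
    (hDesc : ∀ (N : ℕ) [NeZero N] (p : ℕ), p.Prime → Skeleton.BlockDesc N p) :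
    Interface.NonVanishTarget :=
  Skeleton.nonVanishTarget_of_blocks' (fun N _ p hp => by
    haveI : Fact p.Prime := ⟨hp⟩
    exact ⟨hDesc N p hp, BlockB.D0 N p, BlockB.blockB N p, blockKC N p⟩)

end Fermat.Agent.S29.NonVanish.MainOf
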