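import Mathlib
import Fermat.Agent.S29.NonVanish.Skeleton
import Fermat.Agent.S29.Betti.EigenSupport

/-!
# S29 (R3, TOP): the common `TopData` and block (B)

* `D0 N p : TopData N p` : `P := Betti.XMod N (ZMod p) (ZMod p)` (the admissible `𝔽_p`-characters
  of `Γ₀(N)`), `T ℓ := Betti.heckeXp N p ℓ` (`ℓ ∤ N p`);
* `blockB_D0 : BlockB N p (D0 N p)` from `Betti.exists_tensor_eigen_X`.
-/

set_option autoImplicit false
set_option linter.unusedSectionVars false
set_option linter.style.haveILetI false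

noncomputable section

open CongruenceSubgroup
open scoped TensorProduct

namespace Fermat.Agent.S29.NonVanish.BlockBX

open Fermat.Agent.S29.NonVanish.Skeleton Fermat.Agent.S29.Betti

variable (N p : ℕ) [NeZero N]

/-- a prime not dividing `N p` does not divide `N`. -/
def toGoodN (ℓ : Skeleton.GoodPrime N p) : Betti.GoodPrime N :=
  ⟨ℓ.1, fun h => ℓ.2 (Dvd.dvd.mul_right h p)⟩

@[simp] theorem toGoodN_coe (ℓ : Skeleton.GoodPrime N p) : (toGoodN N p ℓ).1 = ℓ.1 := rfl

/-- **the common source module**: admissible `𝔽_p`-characters with the transfer Hecke operators. -/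
def D0 : TopData N p where
  P := XMod N (ZMod p) (ZMod p)
  T ℓ := heckeXp N p (toGoodN N p ℓ)

@[simp] theorem D0_P : (D0 N p).P = XMod N (ZMod p) (ZMod p) := rfl

theorem D0_T (ℓ : Skeleton.GoodPrime N p) : (D0 N p).T ℓ = heckeXp N p (toGoodN N p ℓ) := rfl

/-- the value of `T ℓ u` on `γ`: the transfer formula. -/
theorem D0_T_apply (ℓ : Skeleton.GoodPrime N p) (u : (D0 N p).P) :
    (((D0 N p).T ℓ u : (D0 N p).P) : Additive (Gamma0 N) →+ ZMod p) =
      heckeHom (toGoodN N p ℓ).2 (ZMod p) (u : Additive (Gamma0 N) →+ ZMod p) := rfl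

/-- **block (B)** for `D0`. -/
theorem blockB_D0 : BlockB N p (D0 N p) := by
  intro g hg hp k0 _ _ φ0 a ha
  haveI : Fact p.Prime := ⟨hp⟩
  obtain ⟨w, hw0, hw⟩ := exists_tensor_eigen_X N hg p φ0
  refine ⟨w, hw0, fun ℓ => ?_⟩
  obtain ⟨a', ha', hwa⟩ := hw (toGoodN N p ℓ)
  have h1 : a' = a ℓ.1 := by
    apply Subtype.ext
    rw [ha', ha ℓ.1 ℓ.2]
    rfl
  rw [← h1]
  exact hwa

end Fermat.Agent.S29.NonVanish.BlockBX

end
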