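import Mathlib
import Fermat.Agent.S29.NonVanish.Skeleton
import Fermat.Agent.S29.Kummer.Forward
import Fermat.Agent.S29.ModFunC.BridgeFacts
import Fermat.Agent.S29.Eis.Adapter

/-!
# S29 (R3, TOP): refinement of block (KC) into (Cls) + (Hk)

Over `ℂ`, with `Φ := PhiK N (RingHom.id ℂ) : F_ℂ →+* Mer` (the bridge), `ι := algebraMap ℂ Mer`,
`ρ γ := compMer γ` (`γ ∈ Γ₀(N)`) and the multiplier family `Eis.charOf u` of a character
`u : Γ₀(N) → ZMod p`, a *witness* of `u` is `Kummer.Forward.Wit Φ ι ρ p (charOf u) y f D`: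
`y ∈ Mer`, `y ≠ 0`, `compMer γ y = ζ^{u γ} y`, `y ^ p = Φ f`, `p • D = div f`.

* `BlockCls D` (owner: `Kummer/ClassMapC.lean`): every `u ∈ P` has a witness, and there is an
  injective additive `cls : P → Pic⁰(F_ℂ)[p]` with `cls u = [D]` for EVERY witness `(y, f, D)`
  of `u`;
* `BlockHk D` (owner: `Hk/Equivariance.lean`): from a witness `(y, f, D)` of `u` one gets a witness
  `(y', f', D')` of `T_ℓ u` with `T_ℓ^ℂ [D] = [D']`;
* `blockKC_of : BlockCls D → BlockHk D → BlockKC N p D`.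
-/

set_option autoImplicit false
set_option linter.unusedSectionVars false
set_option linter.style.haveILetI false

noncomputable section

open AlgebraicCurve ModularCurve CongruenceSubgroup
open scoped MatrixGroups

namespace Fermat.Agent.S29.NonVanish.SkeletonC

open Fermat.Agent.S24 Fermat.Agent.S24.PsiLe
open Fermat.Agent.S29.NonVanish.Skeleton Fermat.Agent.S29.Kummer.Forward
open Fermat.Agent.S29.ModFunC Fermat.Agent.S29.Eis

variable (N p : ℕ) [NeZero N] [NeZero p]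

/-- the bridge `F_ℂ →+* Mer`. -/
abbrev PhiCN : ↥(FCN N) →+* Mer := PhiK N (RingHom.id ℂ)

/-- translation by `γ ∈ Γ₀(N)` on `Mer`. -/
abbrev rhoC (γ : Gamma0 N) : Mer →+* Mer := compMer (γ : SL(2, ℤ))

/-- `(y, f, D)` is a witness of the character `u`. -/
abbrev WitC (u : Additive (Gamma0 N) →+ ZMod p) (y : Mer) (f : ↥(FCN N))
    (D : Divisor ℂ (FCN N)) : Prop :=
  Wit (PhiCN N) (algebraMap ℂ Mer) (rhoC N) p (fun γ => charOf u γ) y f D

variable {N p}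

/-- **block (Cls)**: the class map over `ℂ` with its specification. -/
def BlockCls (D : TopData N p) : Prop :=
  (∀ u : D.P, ∃ (y : Mer) (f : ↥(FCN N)) (Dv : Divisor ℂ (FCN N)),
    WitC N p (u : Additive (Gamma0 N) →+ ZMod p) y f Dv) ∧
  ∃ cls : D.P →+ JpC N p, Function.Injective cls ∧
    ∀ (u : D.P) (y : Mer) (f : ↥(FCN N)) (Dv : Divisor ℂ (FCN N)),
      WitC N p (u : Additive (Gamma0 N) →+ ZMod p) y f Dv →
      ∃ hD : Dv ∈ Divisor.degZero (K := ℂ) (F := FCN N),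
        ((cls u : JpC N p) : Pic0 ℂ (FCN N)) = Pic0.mk ⟨Dv, hD⟩

/-- **block (Hk)**: Hecke equivariance over `ℂ` in witness form. -/
def BlockHk (D : TopData N p) : Prop :=
  ∀ (ℓ : GoodPrime N p) (u : D.P) (y : Mer) (f : ↥(FCN N)) (Dv : Divisor ℂ (FCN N))
    (hD : Dv ∈ Divisor.degZero (K := ℂ) (F := FCN N)),
    WitC N p (u : Additive (Gamma0 N) →+ ZMod p) y f Dv →
    ∃ (y' : Mer) (f' : ↥(FCN N)) (Dv' : Divisor ℂ (FCN N))
      (hD' : Dv' ∈ Divisor.degZero (K := ℂ) (F := FCN N)),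
      WitC N p ((D.T ℓ u : D.P) : Additive (Gamma0 N) →+ ZMod p) y' f' Dv' ∧
        heckeC N ℓ.1 (Pic0.mk ⟨Dv, hD⟩) = Pic0.mk ⟨Dv', hD'⟩

/-- (Cls) + (Hk) ⇒ (KC). -/
theorem blockKC_of {D : TopData N p} (hC : BlockCls D) (hH : BlockHk D) : BlockKC N p D := by
  obtain ⟨hex, cls, hinj, hspec⟩ := hC
  refine ⟨cls, hinj, fun ℓ u => ?_⟩
  obtain ⟨y, f, Dv, hw⟩ := hex u
  obtain ⟨hD, hcls⟩ := hspec u y f Dv hw
  obtain ⟨y', f', Dv', hD', hw', hT⟩ := hH ℓ u y f Dv hD hw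
  obtain ⟨hD'', hcls'⟩ := hspec (D.T ℓ u) y' f' Dv' hw'
  rw [hcls', hcls, hT]

end Fermat.Agent.S29.NonVanish.SkeletonC

end
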